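import Fermat.Agent.S20_helper43.Elliptic

/-!
# Germs at an elliptic point: the Möbius map of a stabilising element, its multiplier, the
automorphy factor, and the induced permutation of `SL(2,ℤ) ⧸ Γ₀(N)` (inputs of T20 piece B4)
-/

open UpperHalfPlane ModularGroup MatrixGroups Matrix.SpecialLinearGroup ModularForm
open scoped Modular Manifold Topology

namespace Fermat.Agent.S20_helper43

/-! ### The action on cosets -/

section Cosets

variable {N : ℕ}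

theorem neg_one_mem_Gamma0 (N : ℕ) : (-1 : SL(2, ℤ)) ∈ CongruenceSubgroup.Gamma0 N := by
  rw [CongruenceSubgroup.Gamma0_mem]
  simp

/-- `-1` acts trivially on `SL(2,ℤ) ⧸ Γ₀(N)` -/
theorem neg_one_smul_coset (x : SL(2, ℤ) ⧸ CongruenceSubgroup.Gamma0 N) :
    (-1 : SL(2, ℤ)) • x = x := by
  induction x using QuotientGroup.induction_on with
  | H g =>
    rw [MulAction.Quotient.smul_mk, QuotientGroup.eq, smul_eq_mul]
    have h : (-1 * g)⁻¹ * g = -1 := by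
      have h1 : (-1 * g : SL(2, ℤ)) = g * (-1) := by simp
      rw [h1, mul_inv_rev, mul_assoc, inv_mul_cancel, mul_one]
      decide
    rw [h]
    exact neg_one_mem_Gamma0 N

theorem neg_smul_coset (g : SL(2, ℤ)) (x : SL(2, ℤ) ⧸ CongruenceSubgroup.Gamma0 N) :
    (-g) • x = g • x := by
  have h : (-g : SL(2, ℤ)) = g * (-1) := by simp
  rw [h, mul_smul, neg_one_smul_coset]

end Cosets

/-! ### Fixed point counts are class functions -/

section Fixed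

variable {G X : Type*} [Group G] [MulAction G X]

/-- conjugate elements have the same number of fixed points -/
theorem card_fixed_conj (g γ : G) :
    Nat.card {x : X // (g * γ * g⁻¹) • x = x} = Nat.card {x : X // γ • x = x} := by
  refine Nat.card_congr ⟨fun x => ⟨g⁻¹ • x.1, ?_⟩, fun x => ⟨g • x.1, ?_⟩, ?_, ?_⟩
  · have h := x.2
    rw [mul_smul, mul_smul] at h
    rw [eq_inv_smul_iff]
    exact h
  · rw [mul_smul, mul_smul, inv_smul_smul, x.2]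
  · intro x; ext; simp
  · intro x; ext; simp

theorem card_fixed_inv (γ : G) :
    Nat.card {x : X // γ⁻¹ • x = x} = Nat.card {x : X // γ • x = x} := by
  refine Nat.card_congr (Equiv.subtypeEquivRight fun x => ?_)
  rw [inv_smul_eq_iff, eq_comm]

end Fixed

section FixedCoset

variable {N : ℕ}

theorem card_fixed_neg (γ : SL(2, ℤ)) :
    Nat.card {x : SL(2, ℤ) ⧸ CongruenceSubgroup.Gamma0 N // (-γ) • x = x} =
      Nat.card {x : SL(2, ℤ) ⧸ CongruenceSubgroup.Gamma0 N // γ • x = x} := by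
  refine Nat.card_congr (Equiv.subtypeEquivRight fun x => ?_)
  rw [neg_smul_coset]

theorem card_fixed_ST_sq :
    Nat.card {x : SL(2, ℤ) ⧸ CongruenceSubgroup.Gamma0 N // ((S * T) ^ 2) • x = x} =
      Nat.card {x : SL(2, ℤ) ⧸ CongruenceSubgroup.Gamma0 N // (S * T) • x = x} := by
  have h : (S * T) ^ 2 = -(S * T)⁻¹ := by decide
  rw [h, card_fixed_neg, card_fixed_inv]

end FixedCoset

/-! ### The Möbius map and the factor of automorphy as germs -/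


/-- the Möbius map of `γ` as a function on `ℂ` -/
noncomputable def mob (γ : SL(2, ℤ)) (z : ℂ) : ℂ :=
  (((γ 0 0 : ℤ) : ℂ) * z + ((γ 0 1 : ℤ) : ℂ)) / (((γ 1 0 : ℤ) : ℂ) * z + ((γ 1 1 : ℤ) : ℂ))

/-- the factor of automorphy `c z + d` as a function on `ℂ` -/
noncomputable def aut (γ : SL(2, ℤ)) (z : ℂ) : ℂ := ((γ 1 0 : ℤ) : ℂ) * z + ((γ 1 1 : ℤ) : ℂ)

theorem aut_eq_denom (γ : SL(2, ℤ)) (τ : ℍ) : aut γ τ = denom γ τ := by
  rw [ModularGroup.denom_apply]; rfl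

theorem aut_ne_zero (γ : SL(2, ℤ)) (τ : ℍ) : aut γ τ ≠ 0 := by
  rw [aut_eq_denom]; exact denom_ne_zero _ τ

theorem mob_coe (γ : SL(2, ℤ)) (τ : ℍ) : mob γ τ = ((γ • τ : ℍ) : ℂ) := by
  rw [coe_specialLinearGroup_apply]
  simp [mob]

theorem mob_of_im_pos (γ : SL(2, ℤ)) {z : ℂ} (hz : 0 < z.im) :
    mob γ z = ((γ • ofComplex z : ℍ) : ℂ) := by
  have h := mob_coe γ ⟨z, hz⟩
  rw [ofComplex_apply_of_im_pos hz]
  exact h

theorem ofComplex_mob (γ : SL(2, ℤ)) {z : ℂ} (hz : 0 < z.im) :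
    ofComplex (mob γ z) = γ • ofComplex z := by
  rw [mob_of_im_pos γ hz, ofComplex_apply]

theorem im_pos_eventually (τ : ℍ) : ∀ᶠ z in 𝓝 (τ : ℂ), 0 < z.im :=
  (isOpen_lt continuous_const Complex.continuous_im).mem_nhds τ.im_pos

theorem analyticAt_aut (γ : SL(2, ℤ)) (z : ℂ) : AnalyticAt ℂ (aut γ) z := by
  unfold aut
  fun_prop

theorem analyticAt_mob (γ : SL(2, ℤ)) (τ : ℍ) : AnalyticAt ℂ (mob γ) τ := by
  unfold mob
  refine AnalyticAt.div (by fun_prop) (by fun_prop) ?_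
  exact aut_ne_zero γ τ

theorem hasDerivAt_mob (γ : SL(2, ℤ)) (τ : ℍ) :
    HasDerivAt (mob γ) (1 / (aut γ τ) ^ 2) τ := by
  have hdet : ((γ 0 0 : ℤ) : ℂ) * ((γ 1 1 : ℤ) : ℂ) - ((γ 0 1 : ℤ) : ℂ) * ((γ 1 0 : ℤ) : ℂ) = 1 := by
    have := γ.det_coe
    rw [Matrix.det_fin_two] at this
    exact_mod_cast this
  have hn : HasDerivAt (fun z : ℂ => ((γ 0 0 : ℤ) : ℂ) * z + ((γ 0 1 : ℤ) : ℂ))
      ((γ 0 0 : ℤ) : ℂ) τ := by
    simpa using ((hasDerivAt_id (τ : ℂ)).const_mul ((γ 0 0 : ℤ) : ℂ)).add_const ((γ 0 1 : ℤ) : ℂ)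
  have hd : HasDerivAt (fun z : ℂ => ((γ 1 0 : ℤ) : ℂ) * z + ((γ 1 1 : ℤ) : ℂ))
      ((γ 1 0 : ℤ) : ℂ) τ := by
    simpa using ((hasDerivAt_id (τ : ℂ)).const_mul ((γ 1 0 : ℤ) : ℂ)).add_const ((γ 1 1 : ℤ) : ℂ)
  have h := hn.div hd (aut_ne_zero γ τ)
  have hne : ((γ 1 0 : ℤ) : ℂ) * τ + ((γ 1 1 : ℤ) : ℂ) ≠ 0 := aut_ne_zero γ τ
  have heq : 1 / (aut γ τ) ^ 2 = (((γ 0 0 : ℤ) : ℂ) * (((γ 1 0 : ℤ) : ℂ) * τ + ((γ 1 1 : ℤ) : ℂ)) -
      (((γ 0 0 : ℤ) : ℂ) * τ + ((γ 0 1 : ℤ) : ℂ)) * ((γ 1 0 : ℤ) : ℂ)) /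
      (((γ 1 0 : ℤ) : ℂ) * τ + ((γ 1 1 : ℤ) : ℂ)) ^ 2 := by
    unfold aut
    field_simp
    linear_combination -hdet
  rw [heq]
  exact h

theorem deriv_mob (γ : SL(2, ℤ)) (τ : ℍ) : deriv (mob γ) τ = 1 / (aut γ τ) ^ 2 :=
  (hasDerivAt_mob γ τ).deriv

/-- the germ at `τ` of a holomorphic function on `ℍ` is analytic -/
theorem analyticAt_comp_ofComplex {f : ℍ → ℂ} (hf : MDiff f) (τ : ℍ) :
    AnalyticAt ℂ (f ∘ ofComplex) τ := by
  rw [UpperHalfPlane.mdifferentiable_iff] at hf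
  exact hf.analyticAt ((isOpen_lt continuous_const Complex.continuous_im).mem_nhds τ.im_pos)

/-- the slash relation `f ∣[k] γ = f'` in germ form -/
theorem slash_germ {k : ℤ} {f f' : ℍ → ℂ} {γ : SL(2, ℤ)} (h : f ∣[k] γ = f') (τ : ℍ) :
    ∀ᶠ z in 𝓝 (τ : ℂ), (f ∘ ofComplex) (mob γ z) = aut γ z ^ k * (f' ∘ ofComplex) z := by
  filter_upwards [im_pos_eventually τ] with z hz
  have h1 := congrFun h (ofComplex z)
  rw [SL_slash_apply] at h1
  have hd : denom γ (ofComplex z) = aut γ z := by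
    rw [← aut_eq_denom, ofComplex_apply_of_im_pos hz]
  have hne : aut γ z ≠ 0 := by
    have := aut_ne_zero γ ⟨z, hz⟩
    exact this
  simp only [Function.comp_apply]
  rw [ofComplex_mob γ hz, ← h1, hd, mul_comm, mul_assoc, ← zpow_add₀ hne]
  simp



/-- cocycle relation of the automorphy factor -/
theorem aut_mul (g γ : SL(2, ℤ)) (τ : ℍ) :
    aut (g * γ) τ = aut g ((γ • τ : ℍ) : ℂ) * aut γ τ := by
  rw [← mob_coe]
  have hne : ((γ 1 0 : ℤ) : ℂ) * τ + ((γ 1 1 : ℤ) : ℂ) ≠ 0 := aut_ne_zero γ τ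
  have h10 : (g * γ) 1 0 = g 1 0 * γ 0 0 + g 1 1 * γ 1 0 := by
    rw [Matrix.SpecialLinearGroup.coe_mul, Matrix.mul_apply]; simp [Fin.sum_univ_two]
  have h11 : (g * γ) 1 1 = g 1 0 * γ 0 1 + g 1 1 * γ 1 1 := by
    rw [Matrix.SpecialLinearGroup.coe_mul, Matrix.mul_apply]; simp [Fin.sum_univ_two]
  unfold aut mob
  rw [h10, h11]
  push_cast
  field_simp
  ring

/-- at a fixed point the automorphy factor is conjugation invariant -/
theorem aut_conj {γ : SL(2, ℤ)} {τ : ℍ} (hγ : γ • τ = τ) (g : SL(2, ℤ)) :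
    aut (g * γ * g⁻¹) ((g • τ : ℍ) : ℂ) = aut γ τ := by
  have h1 : aut (g * γ * g⁻¹ * g) τ = aut (g * γ * g⁻¹) ((g • τ : ℍ) : ℂ) * aut g τ :=
    aut_mul _ _ _
  have h2 : aut (g * γ) τ = aut g ((γ • τ : ℍ) : ℂ) * aut γ τ := aut_mul _ _ _
  rw [hγ] at h2
  have h3 : g * γ * g⁻¹ * g = g * γ := by group
  rw [h3, h2] at h1
  have hne := aut_ne_zero g τ
  have : aut (g * γ * g⁻¹) ((g • τ : ℍ) : ℂ) * aut g τ = aut γ τ * aut g τ := by
    rw [← h1]; ring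
  exact mul_right_cancel₀ hne this

theorem aut_S_I : aut S ((I : ℍ) : ℂ) = Complex.I := by
  simp [aut, S]

theorem aut_ST_sq_ρ : aut ((S * T) ^ 2) ((ρ : ℍ) : ℂ) = (ρ : ℂ) := by
  have h10 : ((S * T) ^ 2 : SL(2, ℤ)) 1 0 = 1 := by decide
  have h11 : ((S * T) ^ 2 : SL(2, ℤ)) 1 1 = 0 := by decide
  simp [aut, h10, h11]



theorem ρ_cube : ((ρ : ℍ) : ℂ) ^ 3 = 1 := by
  have h := ρ_sq
  calc ((ρ : ℍ) : ℂ) ^ 3 = (ρ : ℂ) * (ρ : ℂ) ^ 2 := by ring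
    _ = (ρ : ℂ) * (-ρ - 1) := by rw [h]
    _ = -((ρ : ℂ) ^ 2) - ρ := by ring
    _ = 1 := by rw [h]; ring

theorem ρ_ne_one : ((ρ : ℍ) : ℂ) ≠ 1 := by
  intro h
  have h2 := ρ_sq
  rw [h] at h2
  norm_num at h2

theorem ρ_ne_zero : ((ρ : ℍ) : ℂ) ≠ 0 := ne_zero ρ

theorem isPrimitiveRoot_ρ : IsPrimitiveRoot ((ρ : ℍ) : ℂ) 3 := by
  refine IsPrimitiveRoot.mk_of_lt _ (by norm_num) ρ_cube ?_
  intro l hl0 hl3 h
  interval_cases l
  · exact ρ_ne_one (by simpa using h)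
  · have h2 := ρ_sq
    rw [h] at h2
    have h3 : ((ρ : ℍ) : ℂ) = -2 := by linear_combination h2
    have h4 := ρ_cube
    rw [h3] at h4
    norm_num at h4

theorem isPrimitiveRoot_neg_one : IsPrimitiveRoot (-1 : ℂ) 2 := by
  refine IsPrimitiveRoot.mk_of_lt _ (by norm_num) (by norm_num) ?_
  intro l hl0 hl2 h
  interval_cases l
  norm_num at h

/-! ### The elliptic generators -/

/-- the generator of the stabiliser of a point of the orbit of `I` -/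
def genI (g : SL(2, ℤ)) : SL(2, ℤ) := g⁻¹ * S * g⁻¹⁻¹

/-- the generator of the stabiliser of a point of the orbit of `ρ` (with multiplier `e^{2πi/3}`) -/
def genρ (g : SL(2, ℤ)) : SL(2, ℤ) := g⁻¹ * (S * T) ^ 2 * g⁻¹⁻¹

theorem S_smul_I : S • (I : ℍ) = I := stabilizer_I.2 (by simp)

theorem ST_sq_smul_ρ : ((S * T) ^ 2) • (ρ : ℍ) = ρ := by
  rw [ST_sq]
  exact stabilizer_ρ.2 (by simp)

theorem genI_smul {τ : ℍ} {g : SL(2, ℤ)} (hg : g • τ = I) : genI g • τ = τ := by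
  have hτ : τ = g⁻¹ • (I : ℍ) := by rw [← hg, inv_smul_smul]
  rw [genI, hτ]
  exact (conj_smul_smul_eq_iff g⁻¹ S I).2 S_smul_I

theorem genρ_smul {τ : ℍ} {g : SL(2, ℤ)} (hg : g • τ = ρ) : genρ g • τ = τ := by
  have hτ : τ = g⁻¹ • (ρ : ℍ) := by rw [← hg, inv_smul_smul]
  rw [genρ, hτ]
  exact (conj_smul_smul_eq_iff g⁻¹ _ ρ).2 ST_sq_smul_ρ

theorem aut_genI {τ : ℍ} {g : SL(2, ℤ)} (hg : g • τ = I) : aut (genI g) τ = Complex.I := by
  have hτ : τ = g⁻¹ • (I : ℍ) := by rw [← hg, inv_smul_smul]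
  rw [genI, hτ, aut_conj S_smul_I, aut_S_I]

theorem aut_genρ {τ : ℍ} {g : SL(2, ℤ)} (hg : g • τ = ρ) : aut (genρ g) τ = (ρ : ℂ) := by
  have hτ : τ = g⁻¹ • (ρ : ℍ) := by rw [← hg, inv_smul_smul]
  rw [genρ, hτ, aut_conj ST_sq_smul_ρ, aut_ST_sq_ρ]

theorem deriv_mob_genI {τ : ℍ} {g : SL(2, ℤ)} (hg : g • τ = I) :
    deriv (mob (genI g)) τ = -1 := by
  rw [deriv_mob, aut_genI hg, Complex.I_sq]
  norm_num

theorem deriv_mob_genρ {τ : ℍ} {g : SL(2, ℤ)} (hg : g • τ = ρ) :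
    deriv (mob (genρ g)) τ = (ρ : ℂ) := by
  rw [deriv_mob, aut_genρ hg]
  have h3 := ρ_cube
  have h0 := ρ_ne_zero
  field_simp
  linear_combination -h3

theorem mob_genI_self {τ : ℍ} {g : SL(2, ℤ)} (hg : g • τ = I) : mob (genI g) τ = τ := by
  rw [mob_coe, genI_smul hg]

theorem mob_genρ_self {τ : ℍ} {g : SL(2, ℤ)} (hg : g • τ = ρ) : mob (genρ g) τ = τ := by
  rw [mob_coe, genρ_smul hg]

theorem genI_sq (g : SL(2, ℤ)) : genI g ^ 2 = -1 := by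
  rw [genI, pow_conj, S_sq]
  simp

theorem genρ_cube (g : SL(2, ℤ)) : genρ g ^ 3 = 1 := by
  rw [genρ, pow_conj]
  have h : ((S * T) ^ 2) ^ 3 = 1 := by decide
  rw [h]
  simp

section Perm

variable {N : ℕ}

/-- the induced permutation `x ↦ γ⁻¹ • x` of the cosets is an involution on the orbit of `I` -/
theorem genI_inv_smul_smul (g : SL(2, ℤ)) (x : SL(2, ℤ) ⧸ CongruenceSubgroup.Gamma0 N) :
    (genI g)⁻¹ • (genI g)⁻¹ • x = x := by
  rw [← mul_smul, ← mul_inv_rev, ← sq, genI_sq]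
  have : (-1 : SL(2, ℤ))⁻¹ = -1 := by decide
  rw [this, neg_one_smul_coset]

theorem genρ_inv_smul_smul_smul (g : SL(2, ℤ)) (x : SL(2, ℤ) ⧸ CongruenceSubgroup.Gamma0 N) :
    (genρ g)⁻¹ • (genρ g)⁻¹ • (genρ g)⁻¹ • x = x := by
  rw [← mul_smul, ← mul_smul, ← mul_inv_rev, ← mul_inv_rev, ← pow_three, genρ_cube]
  simp

theorem card_fixed_genI_inv (g : SL(2, ℤ)) :
    Nat.card {x : SL(2, ℤ) ⧸ CongruenceSubgroup.Gamma0 N // (genI g)⁻¹ • x = x} =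
      Nat.card {x : SL(2, ℤ) ⧸ CongruenceSubgroup.Gamma0 N // S • x = x} := by
  rw [card_fixed_inv, genI, card_fixed_conj]

theorem card_fixed_genρ_inv (g : SL(2, ℤ)) :
    Nat.card {x : SL(2, ℤ) ⧸ CongruenceSubgroup.Gamma0 N // (genρ g)⁻¹ • x = x} =
      Nat.card {x : SL(2, ℤ) ⧸ CongruenceSubgroup.Gamma0 N // (S * T) • x = x} := by
  rw [card_fixed_inv, genρ, card_fixed_conj, card_fixed_ST_sq]

end Perm


end Fermat.Agent.S20_helper43
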