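import Mathlib

/-!
# Elliptic points of `SL(2,ℤ)` acting on the upper half plane (piece J5 of the T20/T24 plan)

Everything is a corollary of Mathlib's `ModularGroup.cases_of_mem_fd_smul_mem_fd`,
`ModularGroup.stabilizer_I`, `ModularGroup.stabilizer_ρ`, `ModularGroup.stabilizer_of_ne`.

Main statements (`Stab τ = MulAction.stabilizer SL(2,ℤ) τ`):
* `exists_smul_eq_I_or_ρ` : a point with a stabilising `γ ≠ ±1` lies in the orbit of `I` or of `ρ`;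
* `smul_eq_self_iff_of_smul_eq_I/ρ` : the stabiliser of a point of these orbits, as a conjugate;
* `smul_eq_self_iff_of_not_orbit` : all other points have stabiliser `{1, -1}`;
* `card_stabilizer_I = 4`, `card_stabilizer_ρ = 6`, `card_stabilizer_mem : … ∈ {2, 4, 6}`;
* `exists_conj_eq_of_smul_eq_self` : a stabilising `γ ≠ ±1` is conjugate in `SL(2,ℤ)` to one of
  `S, -S, S*T, -(S*T), (S*T)^2, -(S*T)^2`;
* `trace_of_smul_eq_self` : such a `γ` has trace `0`, `1` or `-1`, and `γ^2 = -1` resp. `γ^3 = ±1`;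
* `denom_sq_of_smul_eq_self`, `multiplier_of_smul_eq_self`, `multiplier_ne_one` : the automorphy
  factor `c τ + d` at a fixed point is an eigenvalue of `γ`; its square (the inverse of the
  derivative of `z ↦ γ • z` at `τ`) is `-1` resp. a primitive cube root of unity.
-/

open UpperHalfPlane ModularGroup MatrixGroups Matrix.SpecialLinearGroup
open scoped Modular

namespace Fermat.Agent.S20_helper43

/-- conjugation by `g` is cancelled by `g = 1` -/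
theorem eq_one_of_conj_eq_one {g γ : SL(2, ℤ)} (h : g * γ * g⁻¹ = 1) : γ = 1 := by
  have : γ = g⁻¹ * (g * γ * g⁻¹) * g := by group
  rw [this, h]
  simp

theorem eq_neg_one_of_conj_eq_neg_one {g γ : SL(2, ℤ)} (h : g * γ * g⁻¹ = -1) : γ = -1 := by
  have : γ = g⁻¹ * (g * γ * g⁻¹) * g := by group
  rw [this, h]
  simp

theorem conj_smul_smul_eq_iff (g γ : SL(2, ℤ)) (τ : ℍ) :
    (g * γ * g⁻¹) • (g • τ) = g • τ ↔ γ • τ = τ := by
  rw [mul_smul, mul_smul, inv_smul_smul]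
  exact (MulAction.injective g).eq_iff

/-- **E3**: a point of `ℍ` fixed by some `γ ≠ ±1` is `SL(2,ℤ)`-equivalent to `I` or to `ρ`. -/
theorem exists_smul_eq_I_or_ρ {τ : ℍ} {γ : SL(2, ℤ)} (hγ : γ • τ = τ) (h1 : γ ≠ 1)
    (hm1 : γ ≠ -1) : ∃ g : SL(2, ℤ), g • τ = I ∨ g • τ = ρ := by
  obtain ⟨g, hg⟩ := exists_smul_mem_fd τ
  have hfix : (g * γ * g⁻¹) • (g • τ) = g • τ := (conj_smul_smul_eq_iff g γ τ).2 hγ
  by_cases hI : g • τ = I
  · exact ⟨g, Or.inl hI⟩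
  by_cases hρ : g • τ = ρ
  · exact ⟨g, Or.inr hρ⟩
  by_cases hρ' : g • τ = (1 : ℝ) +ᵥ ρ
  · refine ⟨T⁻¹ * g, Or.inr ?_⟩
    rw [mul_smul, hρ', inv_smul_eq_iff, modular_T_smul]
  · exfalso
    rcases stabilizer_of_ne hg hfix hI hρ hρ' with h | h
    · exact h1 (eq_one_of_conj_eq_one h)
    · exact hm1 (eq_neg_one_of_conj_eq_neg_one h)

/-- the stabiliser of a point in the orbit of `I` -/
theorem smul_eq_self_iff_of_smul_eq_I {τ : ℍ} {g : SL(2, ℤ)} (hg : g • τ = I) (γ : SL(2, ℤ)) :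
    γ • τ = τ ↔ g * γ * g⁻¹ ∈ ({1, -1, S, -S} : Finset SL(2, ℤ)) := by
  rw [← conj_smul_smul_eq_iff g γ τ, hg, stabilizer_I]

/-- the stabiliser of a point in the orbit of `ρ` -/
theorem smul_eq_self_iff_of_smul_eq_ρ {τ : ℍ} {g : SL(2, ℤ)} (hg : g • τ = ρ) (γ : SL(2, ℤ)) :
    γ • τ = τ ↔ g * γ * g⁻¹ ∈
      ({1, -1, S * T, -(S * T), T⁻¹ * S, -(T⁻¹ * S)} : Finset SL(2, ℤ)) := by
  rw [← conj_smul_smul_eq_iff g γ τ, hg, stabilizer_ρ]

/-- points outside the two elliptic orbits have stabiliser `{1, -1}` -/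
theorem smul_eq_self_iff_of_not_orbit {τ : ℍ} (hI : ∀ g : SL(2, ℤ), g • τ ≠ I)
    (hρ : ∀ g : SL(2, ℤ), g • τ ≠ ρ) (γ : SL(2, ℤ)) : γ • τ = τ ↔ γ = 1 ∨ γ = -1 := by
  constructor
  · intro hγ
    by_contra hne
    push Not at hne
    obtain ⟨g, hg | hg⟩ := exists_smul_eq_I_or_ρ hγ hne.1 hne.2
    · exact hI g hg
    · exact hρ g hg
  · rintro (rfl | rfl)
    · simp
    · rw [SL_neg_smul]; simp

theorem ST_sq : (S * T) ^ 2 = T⁻¹ * S := by decide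

theorem ST_cube : (S * T) ^ 3 = -1 := by decide

theorem S_sq : S ^ 2 = -1 := by decide

theorem stabilizer_I_coe :
    ((MulAction.stabilizer SL(2, ℤ) (I : ℍ) : Subgroup SL(2, ℤ)) : Set SL(2, ℤ)) =
      (({1, -1, S, -S} : Finset SL(2, ℤ)) : Set SL(2, ℤ)) := by
  ext g
  simp only [SetLike.mem_coe, MulAction.mem_stabilizer_iff]
  exact stabilizer_I

theorem stabilizer_ρ_coe :
    ((MulAction.stabilizer SL(2, ℤ) (ρ : ℍ) : Subgroup SL(2, ℤ)) : Set SL(2, ℤ)) =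
      (({1, -1, S * T, -(S * T), T⁻¹ * S, -(T⁻¹ * S)} : Finset SL(2, ℤ)) : Set SL(2, ℤ)) := by
  ext g
  simp only [SetLike.mem_coe, MulAction.mem_stabilizer_iff]
  exact stabilizer_ρ

theorem card_stabilizer_I : Nat.card (MulAction.stabilizer SL(2, ℤ) (I : ℍ)) = 4 := by
  have h : Nat.card ((MulAction.stabilizer SL(2, ℤ) (I : ℍ) : Subgroup SL(2, ℤ)) :
      Set SL(2, ℤ)) = 4 := by
    rw [stabilizer_I_coe, Nat.card_coe_set_eq, Set.ncard_coe_finset]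
    decide
  exact h

theorem card_stabilizer_ρ : Nat.card (MulAction.stabilizer SL(2, ℤ) (ρ : ℍ)) = 6 := by
  have h : Nat.card ((MulAction.stabilizer SL(2, ℤ) (ρ : ℍ) : Subgroup SL(2, ℤ)) :
      Set SL(2, ℤ)) = 6 := by
    rw [stabilizer_ρ_coe, Nat.card_coe_set_eq, Set.ncard_coe_finset]
    decide
  exact h

/-- stabilisers of equivalent points have the same cardinality -/
theorem card_stabilizer_smul (g : SL(2, ℤ)) (τ : ℍ) :
    Nat.card (MulAction.stabilizer SL(2, ℤ) (g • τ)) =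
      Nat.card (MulAction.stabilizer SL(2, ℤ) τ) := by
  rw [MulAction.stabilizer_smul_eq_stabilizer_map_conj]
  exact Nat.card_congr
    ((MulAction.stabilizer SL(2, ℤ) τ).equivMapOfInjective _
      (MulAut.conj g).injective).symm.toEquiv

theorem card_stabilizer_of_not_orbit {τ : ℍ} (hI : ∀ g : SL(2, ℤ), g • τ ≠ I)
    (hρ : ∀ g : SL(2, ℤ), g • τ ≠ ρ) : Nat.card (MulAction.stabilizer SL(2, ℤ) τ) = 2 := by
  have hset : ((MulAction.stabilizer SL(2, ℤ) τ : Subgroup SL(2, ℤ)) : Set SL(2, ℤ)) =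
      (({1, -1} : Finset SL(2, ℤ)) : Set SL(2, ℤ)) := by
    ext g
    simp only [SetLike.mem_coe, MulAction.mem_stabilizer_iff, Finset.coe_insert,
      Finset.coe_singleton, Set.mem_insert_iff, Set.mem_singleton_iff]
    exact smul_eq_self_iff_of_not_orbit hI hρ g
  have h : Nat.card ((MulAction.stabilizer SL(2, ℤ) τ : Subgroup SL(2, ℤ)) :
      Set SL(2, ℤ)) = 2 := by
    rw [hset, Nat.card_coe_set_eq, Set.ncard_coe_finset]
    decide
  exact h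

/-- the trichotomy: the stabiliser has `2`, `4` or `6` elements according to the orbit -/
theorem card_stabilizer_cases (τ : ℍ) :
    ((∃ g : SL(2, ℤ), g • τ = I) ∧ Nat.card (MulAction.stabilizer SL(2, ℤ) τ) = 4) ∨
    ((∃ g : SL(2, ℤ), g • τ = ρ) ∧ Nat.card (MulAction.stabilizer SL(2, ℤ) τ) = 6) ∨
    ((∀ g : SL(2, ℤ), g • τ ≠ I) ∧ (∀ g : SL(2, ℤ), g • τ ≠ ρ) ∧
      Nat.card (MulAction.stabilizer SL(2, ℤ) τ) = 2) := by
  by_cases hI : ∃ g : SL(2, ℤ), g • τ = I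
  · obtain ⟨g, hg⟩ := hI
    refine Or.inl ⟨⟨g, hg⟩, ?_⟩
    rw [← card_stabilizer_smul g τ, hg, card_stabilizer_I]
  by_cases hρ : ∃ g : SL(2, ℤ), g • τ = ρ
  · obtain ⟨g, hg⟩ := hρ
    refine Or.inr (Or.inl ⟨⟨g, hg⟩, ?_⟩)
    rw [← card_stabilizer_smul g τ, hg, card_stabilizer_ρ]
  · push Not at hI hρ
    exact Or.inr (Or.inr ⟨hI, hρ, card_stabilizer_of_not_orbit hI hρ⟩)

theorem card_stabilizer_mem (τ : ℍ) :
    Nat.card (MulAction.stabilizer SL(2, ℤ) τ) ∈ ({2, 4, 6} : Finset ℕ) := by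
  rcases card_stabilizer_cases τ with h | h | h
  · rw [h.2]; decide
  · rw [h.2]; decide
  · rw [h.2.2]; decide

/-- **E4**: a stabilising `γ ≠ ±1` is conjugate in `SL(2,ℤ)` to `±S`, `±ST` or `±(ST)²`. -/
theorem exists_conj_eq_of_smul_eq_self {τ : ℍ} {γ : SL(2, ℤ)} (hγ : γ • τ = τ) (h1 : γ ≠ 1)
    (hm1 : γ ≠ -1) : ∃ g : SL(2, ℤ),
      (g • τ = I ∧ (g * γ * g⁻¹ = S ∨ g * γ * g⁻¹ = -S)) ∨
      (g • τ = ρ ∧ (g * γ * g⁻¹ = S * T ∨ g * γ * g⁻¹ = -(S * T) ∨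
        g * γ * g⁻¹ = (S * T) ^ 2 ∨ g * γ * g⁻¹ = -(S * T) ^ 2)) := by
  obtain ⟨g, hg | hg⟩ := exists_smul_eq_I_or_ρ hγ h1 hm1
  · refine ⟨g, Or.inl ⟨hg, ?_⟩⟩
    have h := (smul_eq_self_iff_of_smul_eq_I hg γ).1 hγ
    simp only [Finset.mem_insert, Finset.mem_singleton] at h
    rcases h with h | h | h | h
    · exact absurd (eq_one_of_conj_eq_one h) h1
    · exact absurd (eq_neg_one_of_conj_eq_neg_one h) hm1
    · exact Or.inl h
    · exact Or.inr h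
  · refine ⟨g, Or.inr ⟨hg, ?_⟩⟩
    have h := (smul_eq_self_iff_of_smul_eq_ρ hg γ).1 hγ
    simp only [Finset.mem_insert, Finset.mem_singleton] at h
    rw [ST_sq]
    rcases h with h | h | h | h | h | h
    · exact absurd (eq_one_of_conj_eq_one h) h1
    · exact absurd (eq_neg_one_of_conj_eq_neg_one h) hm1
    · exact Or.inl h
    · exact Or.inr (Or.inl h)
    · exact Or.inr (Or.inr (Or.inl h))
    · exact Or.inr (Or.inr (Or.inr h))


/-- the trace is a conjugation invariant -/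
theorem trace_conj (g γ : SL(2, ℤ)) :
    Matrix.trace ((g * γ * g⁻¹ : SL(2, ℤ)) : Matrix (Fin 2) (Fin 2) ℤ) =
      Matrix.trace (γ : Matrix (Fin 2) (Fin 2) ℤ) := by
  rw [coe_mul, Matrix.trace_mul_comm, ← coe_mul]
  have h : g⁻¹ * (g * γ) = γ := by group
  rw [h]

theorem pow_conj (g γ : SL(2, ℤ)) (n : ℕ) : (g * γ * g⁻¹) ^ n = g * γ ^ n * g⁻¹ := by
  induction n with
  | zero => simp
  | succ n ih => rw [pow_succ, ih, pow_succ]; group

/-- **E1**: a stabilising `γ ≠ ±1` has trace `0` and `γ² = -1` (orbit of `I`), or trace `±1` and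
`γ³ = ∓1` (orbit of `ρ`). -/
theorem trace_of_smul_eq_self {τ : ℍ} {γ : SL(2, ℤ)} (hγ : γ • τ = τ) (h1 : γ ≠ 1)
    (hm1 : γ ≠ -1) :
    ((∃ g : SL(2, ℤ), g • τ = I) ∧ γ 0 0 + γ 1 1 = 0 ∧ γ ^ 2 = -1) ∨
    ((∃ g : SL(2, ℤ), g • τ = ρ) ∧
      ((γ 0 0 + γ 1 1 = 1 ∧ γ ^ 3 = -1) ∨ (γ 0 0 + γ 1 1 = -1 ∧ γ ^ 3 = 1))) := by
  obtain ⟨g, ⟨hg, h⟩ | ⟨hg, h⟩⟩ := exists_conj_eq_of_smul_eq_self hγ h1 hm1
  · refine Or.inl ⟨⟨g, hg⟩, ?_, ?_⟩
    · have ht := trace_conj g γ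
      rw [Matrix.trace_fin_two, Matrix.trace_fin_two] at ht
      rw [← ht]
      rcases h with h | h <;> rw [h] <;> decide
    · have hp := pow_conj g γ 2
      have : (g * γ * g⁻¹) ^ 2 = -1 := by rcases h with h | h <;> rw [h] <;> decide
      rw [this] at hp
      exact eq_neg_one_of_conj_eq_neg_one hp.symm
  · refine Or.inr ⟨⟨g, hg⟩, ?_⟩
    have ht := trace_conj g γ
    rw [Matrix.trace_fin_two, Matrix.trace_fin_two] at ht
    have hp := pow_conj g γ 3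
    rcases h with h | h | h | h
    · refine Or.inl ⟨?_, ?_⟩
      · rw [← ht, h]; decide
      · have : (g * γ * g⁻¹) ^ 3 = -1 := by rw [h]; decide
        rw [this] at hp
        exact eq_neg_one_of_conj_eq_neg_one hp.symm
    · refine Or.inr ⟨?_, ?_⟩
      · rw [← ht, h]; decide
      · have : (g * γ * g⁻¹) ^ 3 = 1 := by rw [h]; decide
        rw [this] at hp
        exact eq_one_of_conj_eq_one hp.symm
    · refine Or.inr ⟨?_, ?_⟩
      · rw [← ht, h]; decide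
      · have : (g * γ * g⁻¹) ^ 3 = 1 := by rw [h]; decide
        rw [this] at hp
        exact eq_one_of_conj_eq_one hp.symm
    · refine Or.inl ⟨?_, ?_⟩
      · rw [← ht, h]; decide
      · have : (g * γ * g⁻¹) ^ 3 = -1 := by rw [h]; decide
        rw [this] at hp
        exact eq_neg_one_of_conj_eq_neg_one hp.symm



/-- the fixed point equation in coordinates: `a τ + b = τ (c τ + d)` -/
theorem num_eq_of_smul_eq_self {τ : ℍ} {γ : SL(2, ℤ)} (hγ : γ • τ = τ) :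
    ((γ 0 0 : ℤ) : ℂ) * τ + ((γ 0 1 : ℤ) : ℂ) =
      (τ : ℂ) * (((γ 1 0 : ℤ) : ℂ) * τ + ((γ 1 1 : ℤ) : ℂ)) := by
  have h := congrArg (fun z : ℍ => (z : ℂ)) hγ
  simp only [specialLinearGroup_apply] at h
  have hd : ((γ 1 0 : ℤ) : ℂ) * τ + ((γ 1 1 : ℤ) : ℂ) ≠ 0 := by
    have := denom_ne_zero (γ : GL (Fin 2) ℝ) τ
    rwa [ModularGroup.denom_apply] at this
  simp only [algebraMap_int_eq, eq_intCast, Complex.ofReal_intCast] at h
  rw [div_eq_iff hd] at h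
  exact h

/-- the automorphy factor `λ = c τ + d` at a fixed point is an eigenvalue of `γ`:
`λ² - (a + d) λ + 1 = 0` -/
theorem denom_sq_of_smul_eq_self {τ : ℍ} {γ : SL(2, ℤ)} (hγ : γ • τ = τ) :
    (((γ 1 0 : ℤ) : ℂ) * τ + ((γ 1 1 : ℤ) : ℂ)) ^ 2 -
      (((γ 0 0 + γ 1 1 : ℤ) : ℂ)) * (((γ 1 0 : ℤ) : ℂ) * τ + ((γ 1 1 : ℤ) : ℂ)) + 1 = 0 := by
  have h := num_eq_of_smul_eq_self hγ
  have hdet : ((γ 0 0 : ℤ) : ℂ) * ((γ 1 1 : ℤ) : ℂ) - ((γ 0 1 : ℤ) : ℂ) * ((γ 1 0 : ℤ) : ℂ) = 1 := by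
    have := γ.det_coe
    rw [Matrix.det_fin_two] at this
    exact_mod_cast this
  push_cast
  linear_combination (-((γ 1 0 : ℤ) : ℂ)) * h - hdet


/-- **multiplier at an elliptic point**: for a stabilising `γ ≠ ±1` the derivative of `z ↦ γ • z`
at `τ` is `ε⁻¹` with `ε = (c τ + d)²`; `ε = -1` on the orbit of `I`, and `ε` is a primitive cube
root of unity on the orbit of `ρ`. -/
theorem multiplier_of_smul_eq_self {τ : ℍ} {γ : SL(2, ℤ)} (hγ : γ • τ = τ) (h1 : γ ≠ 1)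
    (hm1 : γ ≠ -1) :
    ((∃ g : SL(2, ℤ), g • τ = I) ∧
      (((γ 1 0 : ℤ) : ℂ) * τ + ((γ 1 1 : ℤ) : ℂ)) ^ 2 = -1) ∨
    ((∃ g : SL(2, ℤ), g • τ = ρ) ∧
      ((((γ 1 0 : ℤ) : ℂ) * τ + ((γ 1 1 : ℤ) : ℂ)) ^ 2) ^ 2 +
        (((γ 1 0 : ℤ) : ℂ) * τ + ((γ 1 1 : ℤ) : ℂ)) ^ 2 + 1 = 0) := by
  have he := denom_sq_of_smul_eq_self hγ
  rcases trace_of_smul_eq_self hγ h1 hm1 with ⟨hg, ht, -⟩ | ⟨hg, ⟨ht, -⟩ | ⟨ht, -⟩⟩
  · refine Or.inl ⟨hg, ?_⟩
    rw [ht] at he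
    linear_combination he
  · refine Or.inr ⟨hg, ?_⟩
    rw [ht] at he
    set l := ((γ 1 0 : ℤ) : ℂ) * τ + ((γ 1 1 : ℤ) : ℂ) with hl
    push_cast at he
    linear_combination (l ^ 2 + l + 1) * he
  · refine Or.inr ⟨hg, ?_⟩
    rw [ht] at he
    set l := ((γ 1 0 : ℤ) : ℂ) * τ + ((γ 1 1 : ℤ) : ℂ) with hl
    push_cast at he
    linear_combination (l ^ 2 - l + 1) * he

/-- in particular the multiplier is never `1` -/
theorem multiplier_ne_one {τ : ℍ} {γ : SL(2, ℤ)} (hγ : γ • τ = τ) (h1 : γ ≠ 1)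
    (hm1 : γ ≠ -1) : (((γ 1 0 : ℤ) : ℂ) * τ + ((γ 1 1 : ℤ) : ℂ)) ^ 2 ≠ 1 := by
  intro h
  rcases multiplier_of_smul_eq_self hγ h1 hm1 with ⟨-, h'⟩ | ⟨-, h'⟩
  · rw [h] at h'; norm_num at h'
  · rw [h] at h'; norm_num at h'

end Fermat.Agent.S20_helper43
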